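import Mathlib
import Fermat.Agent.S16.Defs

/-!
# S16, WP ALG (helper635): divisor-sum identities for `sigmaP`

`sigmaP p k` = sum of the divisors of `k` prime to `p`.  For primes `p`, `ℓ ≠ p`:
* `sigmaP_mul_self`  : `σ'(k p) = σ'(k)`
* `sigmaP_hecke`     : `σ'(k ℓ) + [ℓ ∣ k] ℓ σ'(k / ℓ) = (1 + ℓ) σ'(k)`
-/

set_option autoImplicit false

namespace Fermat.Agent.S16.H635

open Finset

theorem sigmaP_one (p : ℕ) (hp : p.Prime) : sigmaP p 1 = 1 := by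
  have h1 : ¬ p ∣ 1 := hp.one_lt.ne' ∘ Nat.dvd_one.mp
  simp [sigmaP, Finset.filter_singleton, h1]

theorem sigmaP_mul_self (p : ℕ) (hp : p.Prime) (k : ℕ) : sigmaP p (k * p) = sigmaP p k := by
  unfold sigmaP
  congr 1
  ext d
  simp only [mem_filter, Nat.mem_divisors]
  constructor
  · rintro ⟨⟨hd, hk⟩, hpd⟩
    refine ⟨⟨?_, left_ne_zero_of_mul hk⟩, hpd⟩
    have hc : Nat.Coprime d p := ((Nat.Prime.coprime_iff_not_dvd hp).mpr hpd).symm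
    exact hc.dvd_of_dvd_mul_right hd
  · rintro ⟨⟨hd, hk⟩, hpd⟩
    exact ⟨⟨hd.mul_right p, mul_ne_zero hk hp.ne_zero⟩, hpd⟩

/-- the completely multiplicative weight `d ↦ d` if `p ∤ d`, `0` otherwise -/
noncomputable def gP (p : ℕ) : ArithmeticFunction ℕ :=
  ⟨fun d => if p ∣ d then 0 else d, by simp⟩

theorem gP_apply (p d : ℕ) : gP p d = if p ∣ d then 0 else d := rfl

theorem gP_isMultiplicative (p : ℕ) (hp : p.Prime) : (gP p).IsMultiplicative := by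
  refine ⟨?_, ?_⟩
  · have h1 : ¬ p ∣ 1 := hp.one_lt.ne' ∘ Nat.dvd_one.mp
    simp [gP_apply, h1]
  · intro m n _
    simp only [gP_apply, hp.dvd_mul]
    by_cases hm : p ∣ m <;> by_cases hn : p ∣ n <;> simp [hm, hn]

theorem sigmaP_eq (p k : ℕ) : sigmaP p k = (gP p * ArithmeticFunction.zeta) k := by
  have h0 : (gP p * ArithmeticFunction.zeta) k = ∑ i ∈ k.divisors, gP p i := by
    simpa using ArithmeticFunction.coe_mul_zeta_apply (f := gP p) (x := k)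
  rw [h0]
  unfold sigmaP
  rw [Finset.sum_filter]
  refine Finset.sum_congr rfl fun d _ => ?_
  rw [gP_apply]
  by_cases h : p ∣ d <;> simp [h]

theorem sigmaP_mul_of_coprime (p : ℕ) (hp : p.Prime) {m n : ℕ} (h : m.Coprime n) :
    sigmaP p (m * n) = sigmaP p m * sigmaP p n := by
  rw [sigmaP_eq, sigmaP_eq, sigmaP_eq]
  exact ((gP_isMultiplicative p hp).mul ArithmeticFunction.isMultiplicative_zeta).map_mul_of_coprime h

theorem sigmaP_prime_pow (p : ℕ) (hp : p.Prime) (ℓ : ℕ) (hℓ : ℓ.Prime) (hℓp : ℓ ≠ p) (e : ℕ) :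
    sigmaP p (ℓ ^ e) = ∑ i ∈ range (e + 1), ℓ ^ i := by
  unfold sigmaP
  rw [Finset.sum_filter, Nat.sum_divisors_prime_pow hℓ]
  refine Finset.sum_congr rfl fun i _ => ?_
  have : ¬ p ∣ ℓ ^ i := fun h => hℓp ((Nat.prime_dvd_prime_iff_eq hp hℓ).mp (hp.dvd_of_dvd_pow h)).symm
  simp [this]

theorem sigmaP_hecke (p : ℕ) (hp : p.Prime) (ℓ : ℕ) (hℓ : ℓ.Prime) (hℓp : ℓ ≠ p) (k : ℕ)
    (hk : 1 ≤ k) :
    sigmaP p (k * ℓ) + (if ℓ ∣ k then ℓ * sigmaP p (k / ℓ) else 0) = (1 + ℓ) * sigmaP p k := by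
  obtain ⟨e, u, hu, rfl⟩ := Nat.exists_eq_pow_mul_and_not_dvd (by omega : k ≠ 0) ℓ hℓ.ne_one
  have hcop : ∀ a : ℕ, Nat.Coprime (ℓ ^ a) u :=
    fun a => Nat.Coprime.pow_left a ((Nat.Prime.coprime_iff_not_dvd hℓ).mpr hu)
  have e1 : ℓ ^ e * u * ℓ = ℓ ^ (e + 1) * u := by ring
  rw [e1, sigmaP_mul_of_coprime p hp (hcop _), sigmaP_mul_of_coprime p hp (hcop _),
    sigmaP_prime_pow p hp ℓ hℓ hℓp, sigmaP_prime_pow p hp ℓ hℓ hℓp]
  rcases Nat.eq_zero_or_pos e with rfl | he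
  · have : ¬ ℓ ∣ ℓ ^ 0 * u := by simpa using hu
    rw [if_neg this]
    simp [Finset.sum_range_succ]
  · obtain ⟨e', rfl⟩ : ∃ e', e = e' + 1 := ⟨e - 1, by omega⟩
    have hdvd : ℓ ∣ ℓ ^ (e' + 1) * u := Dvd.dvd.mul_right (dvd_pow_self ℓ (by omega)) u
    have hdiv : ℓ ^ (e' + 1) * u / ℓ = ℓ ^ e' * u := by
      rw [pow_succ, mul_assoc, mul_comm ℓ u, ← mul_assoc]
      exact Nat.mul_div_cancel _ hℓ.pos
    rw [if_pos hdvd, hdiv, sigmaP_mul_of_coprime p hp (hcop _), sigmaP_prime_pow p hp ℓ hℓ hℓp]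
    rw [Finset.sum_range_succ _ (e' + 1 + 1), Finset.sum_range_succ _ (e' + 1)]
    ring

end Fermat.Agent.S16.H635
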