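import Mathlib
import Fermat.Prelude.Def_HeckeGalois_EichlerShimura
import Fermat.Agent.S16.H635.Sigma

/-!
# S16, WP ALG (helper635): the abstract Hecke-duality argument

`AlgData p L T` packages a commutative ring `T` acting faithfully on a lattice `L` with
coefficient functionals `a k : L → ℤ`, and a surjection `π : ℤ[X_ℓ] → T` such that the
generators act on coefficients by the usual formulas for `T_ℓ` (`ℓ ≠ p`) and `U_p`.

Main result `AlgData.card_quotient_eq`: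
from (UB') and (LB') one gets `|T / π(eisensteinIdeal p)| = n`.
-/

set_option autoImplicit false

noncomputable section

namespace Fermat.Agent.S16.H635

open MvPolynomial Module

/-- Abstract data for the algebraic part of Mazur's index computation. -/
structure AlgData (p : ℕ) (L : Type) [AddCommGroup L] (T : Type) [CommRing T] where
  ρ : T →+* Module.End ℤ L
  ρ_inj : Function.Injective ρ
  a : ℕ → L →ₗ[ℤ] ℤ
  sep : ∀ f : L, (∀ k, 1 ≤ k → a k f = 0) → f = 0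
  sat : ∀ (f : L) (N : ℤ), N ≠ 0 → (∀ k, 1 ≤ k → N ∣ a k f) → ∃ g : L, f = N • g
  π : ModularCurve.HeckeAlg →+* T
  π_surj : Function.Surjective π
  a_T : ∀ ℓ : Nat.Primes, (ℓ : ℕ) ≠ p → ∀ (k : ℕ) (f : L),
    a k (ρ (π (X ℓ)) f) = a (k * ℓ) f + if (ℓ : ℕ) ∣ k then (ℓ : ℤ) * a (k / ℓ) f else 0
  a_U : ∀ ℓ : Nat.Primes, (ℓ : ℕ) = p → ∀ (k : ℕ) (f : L), a k (ρ (π (X ℓ)) f) = a (k * ℓ) f

namespace AlgData

variable {p : ℕ} {L : Type} [AddCommGroup L] {T : Type} [CommRing T] (D : AlgData p L T)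

/-- the image of the Eisenstein ideal -/
abbrev J : Ideal T := Ideal.map D.π (ModularCurve.eisensteinIdeal p)

theorem π_sub_mem (x : ModularCurve.HeckeAlg) :
    D.π x - ((MvPolynomial.aeval (R := ℤ) (ModularCurve.eisensteinSystem p) x : ℤ) : T) ∈ D.J := by
  set ε : ℤ := MvPolynomial.aeval (R := ℤ) (ModularCurve.eisensteinSystem p) x with hε
  have h1 : x - C ε ∈ ModularCurve.eisensteinIdeal p := by
    rw [ModularCurve.eisensteinIdeal, ModularCurve.mem_eigenIdeal_iff, map_sub, MvPolynomial.aeval_C]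
    simp [hε]
  have h2 : D.π (x - C ε) ∈ D.J := Ideal.mem_map_of_mem _ h1
  have h3 : D.π (C ε) = (ε : T) := eq_intCast (D.π.comp C) ε
  rwa [map_sub, h3] at h2

theorem gen_sub_mem (ℓ : Nat.Primes) :
    D.π (X ℓ) - ((ModularCurve.eisensteinSystem p ℓ : ℤ) : T) ∈ D.J := by
  have := D.π_sub_mem (X ℓ)
  rwa [MvPolynomial.aeval_X] at this

theorem exists_int_sub_mem (t : T) : ∃ ε : ℤ, t - (ε : T) ∈ D.J := by
  obtain ⟨x, rfl⟩ := D.π_surj t
  exact ⟨_, D.π_sub_mem x⟩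

theorem ρ_mul_apply (s t : T) (f : L) : D.ρ (s * t) f = D.ρ s (D.ρ t f) := by
  rw [map_mul, Module.End.mul_apply]

theorem ρ_intCast_apply (j : ℤ) (f : L) : D.ρ (j : T) f = j • f := by
  rw [map_intCast]
  simp

theorem ρ_natCast_apply (j : ℕ) (f : L) : D.ρ (j : T) f = (j : ℤ) • f := by
  rw [map_natCast]
  simp

/-- the elements `t_k` with `a₁(t_k f) = a_k(f)`, and `t_k ≡ σ'(k)` mod `J` -/
theorem exists_t (hp : p.Prime) (k : ℕ) (hk : 1 ≤ k) :
    ∃ t : T, (∀ f : L, D.a 1 (D.ρ t f) = D.a k f) ∧ t - ((sigmaP p k : ℕ) : T) ∈ D.J := by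
  induction k using Nat.strong_induction_on with
  | _ k ih =>
    rcases Nat.eq_or_lt_of_le hk with h1 | h1
    · subst h1
      refine ⟨1, fun f => by simp, ?_⟩
      rw [sigmaP_one p hp]
      simp
    · -- `k ≥ 2`
      have hk1 : k ≠ 1 := by omega
      set ℓ := k.minFac with hℓ
      have hℓp : ℓ.Prime := Nat.minFac_prime hk1
      obtain ⟨k', hk'⟩ : ℓ ∣ k := Nat.minFac_dvd k
      have hk'pos : 1 ≤ k' := by
        rcases Nat.eq_zero_or_pos k' with h0 | h0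
        · rw [h0, mul_zero] at hk'; omega
        · exact h0
      have hk'lt : k' < k := by
        rw [hk']
        have := hℓp.two_le
        nlinarith
      have hkk : k = k' * ℓ := by rw [hk', mul_comm]
      obtain ⟨t', ht', hJ'⟩ := ih k' hk'lt hk'pos
      let ℓ' : Nat.Primes := ⟨ℓ, hℓp⟩
      by_cases hℓeq : ℓ = p
      · -- `ℓ = p` : `t = t' U_p`
        refine ⟨t' * D.π (X ℓ'), fun f => ?_, ?_⟩
        · rw [D.ρ_mul_apply, ht', D.a_U ℓ' hℓeq, hkk]
        · have hs : sigmaP p k = sigmaP p k' := by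
            rw [hkk, hℓeq, sigmaP_mul_self p hp]
          have hg := D.gen_sub_mem ℓ'
          rw [ModularCurve.eisensteinSystem_of_dvd (show ((ℓ' : ℕ) ∣ p) from hℓeq ▸ dvd_rfl)] at hg
          rw [hs]
          have e : t' * D.π (X ℓ') - ((sigmaP p k' : ℕ) : T) =
              t' * (D.π (X ℓ') - ((1 : ℤ) : T)) + (t' - ((sigmaP p k' : ℕ) : T)) := by
            push_cast; ring
          rw [e]
          exact D.J.add_mem (D.J.mul_mem_left _ hg) hJ'
      · have hndvd : ¬ (ℓ' : ℕ) ∣ p := fun h =>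
          hℓeq ((Nat.prime_dvd_prime_iff_eq hℓp hp).mp h)
        have hg := D.gen_sub_mem ℓ'
        rw [ModularCurve.eisensteinSystem_of_not_dvd hndvd] at hg
        have hσ := sigmaP_hecke p hp ℓ hℓp hℓeq k' hk'pos
        by_cases hdvd : ℓ ∣ k'
        · -- `t = t' T_ℓ - ℓ t''`
          obtain ⟨k'', hk''⟩ := hdvd
          have hk''pos : 1 ≤ k'' := by
            rcases Nat.eq_zero_or_pos k'' with h0 | h0
            · rw [h0, mul_zero] at hk''; omega
            · exact h0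
          have hk''lt : k'' < k := by
            have := hℓp.two_le
            have : k'' < k' := by rw [hk'']; nlinarith
            omega
          have hdiv : k' / ℓ = k'' := by
            rw [hk'']; exact Nat.mul_div_cancel_left _ hℓp.pos
          obtain ⟨t'', ht'', hJ''⟩ := ih k'' hk''lt hk''pos
          refine ⟨t' * D.π (X ℓ') - (ℓ : T) * t'', fun f => ?_, ?_⟩
          · rw [map_sub, LinearMap.sub_apply, map_sub, D.ρ_mul_apply, ht', D.a_T ℓ' hℓeq,
              D.ρ_mul_apply, D.ρ_natCast_apply, map_smul, ht'']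
            have : (ℓ' : ℕ) ∣ k' := ⟨k'', hk''⟩
            rw [if_pos this, hkk]
            show D.a (k' * ℓ) f + (ℓ : ℤ) * D.a (k' / ℓ) f - (ℓ : ℤ) • D.a k'' f = _
            rw [hdiv, smul_eq_mul]
            ring
          · rw [if_pos ⟨k'', hk''⟩, hdiv] at hσ
            have hσ' : ((sigmaP p k : ℕ) : T) =
                (1 + (ℓ : T)) * ((sigmaP p k' : ℕ) : T) - (ℓ : T) * ((sigmaP p k'' : ℕ) : T) := by
              have : ((sigmaP p (k' * ℓ) + ℓ * sigmaP p k'' : ℕ) : T) =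
                  (((1 + ℓ) * sigmaP p k' : ℕ) : T) := by rw [hσ]
              push_cast at this
              rw [hkk]
              linear_combination this
            have e : t' * D.π (X ℓ') - (ℓ : T) * t'' - ((sigmaP p k : ℕ) : T) =
                t' * (D.π (X ℓ') - ((1 + ((ℓ' : ℕ) : ℤ) : ℤ) : T))
                  + (1 + (ℓ : T)) * (t' - ((sigmaP p k' : ℕ) : T))
                  - (ℓ : T) * (t'' - ((sigmaP p k'' : ℕ) : T)) := by
              rw [hσ']
              push_cast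
              ring
            rw [e]
            exact D.J.sub_mem (D.J.add_mem (D.J.mul_mem_left _ hg) (D.J.mul_mem_left _ hJ'))
              (D.J.mul_mem_left _ hJ'')
        · -- `t = t' T_ℓ`
          refine ⟨t' * D.π (X ℓ'), fun f => ?_, ?_⟩
          · rw [D.ρ_mul_apply, ht', D.a_T ℓ' hℓeq]
            have : ¬ (ℓ' : ℕ) ∣ k' := hdvd
            rw [if_neg this, add_zero, hkk]
          · rw [if_neg hdvd, add_zero] at hσ
            have hσ' : ((sigmaP p k : ℕ) : T) = (1 + (ℓ : T)) * ((sigmaP p k' : ℕ) : T) := by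
              rw [hkk, hσ]; push_cast; ring
            have e : t' * D.π (X ℓ') - ((sigmaP p k : ℕ) : T) =
                t' * (D.π (X ℓ') - ((1 + ((ℓ' : ℕ) : ℤ) : ℤ) : T))
                  + (1 + (ℓ : T)) * (t' - ((sigmaP p k' : ℕ) : T)) := by
              rw [hσ']
              push_cast
              ring
            rw [e]
            exact D.J.add_mem (D.J.mul_mem_left _ hg) (D.J.mul_mem_left _ hJ')

/-! ### The pairing `(t, f) ↦ a₁(t f)` -/

/-- the pairing `T × L → ℤ`, `(t, f) ↦ a₁(t f)` -/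
def pairing : T →ₗ[ℤ] L →ₗ[ℤ] ℤ :=
  (LinearMap.llcomp ℤ L L ℤ (D.a 1)) ∘ₗ D.ρ.toAddMonoidHom.toIntLinearMap

@[simp] theorem pairing_apply (t : T) (f : L) : D.pairing t f = D.a 1 (D.ρ t f) := rfl

theorem pairing_injective (hp : p.Prime) : Function.Injective D.pairing := by
  rw [← LinearMap.ker_eq_bot, LinearMap.ker_eq_bot']
  intro t ht
  apply D.ρ_inj
  rw [map_zero]
  refine LinearMap.ext fun f => ?_
  rw [LinearMap.zero_apply]
  refine D.sep _ fun k hk => ?_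
  obtain ⟨tk, htk, -⟩ := D.exists_t hp k hk
  rw [← htk, ← D.ρ_mul_apply, mul_comm, D.ρ_mul_apply]
  have := LinearMap.congr_fun ht (D.ρ tk f)
  simpa using this

theorem pairing_flip_injective (hp : p.Prime) : Function.Injective D.pairing.flip := by
  rw [← LinearMap.ker_eq_bot, LinearMap.ker_eq_bot']
  intro f hf
  refine D.sep _ fun k hk => ?_
  obtain ⟨tk, htk, -⟩ := D.exists_t hp k hk
  rw [← htk]
  have := LinearMap.congr_fun hf tk
  simpa using this

variable [Module.Free ℤ L] [Module.Finite ℤ L] [Module.Free ℤ T] [Module.Finite ℤ T]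

include D in
theorem finrank_eq (hp : p.Prime) : finrank ℤ L = finrank ℤ T := by
  have h1 : finrank ℤ T ≤ finrank ℤ (L →ₗ[ℤ] ℤ) :=
    LinearMap.finrank_le_finrank_of_injective (D.pairing_injective hp)
  have h2 : finrank ℤ L ≤ finrank ℤ (T →ₗ[ℤ] ℤ) :=
    LinearMap.finrank_le_finrank_of_injective (D.pairing_flip_injective hp)
  rw [Module.finrank_linearMap, Module.finrank_self, mul_one] at h1 h2
  exact le_antisymm h2 h1

/-- **Duality**: every linear form on `T` is `t ↦ a₁(t f)` for some `f ∈ L`. -/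
theorem exists_dual (hp : p.Prime) (φ : T →ₗ[ℤ] ℤ) :
    ∃ f : L, ∀ t : T, D.a 1 (D.ρ t f) = φ t := by
  set Ψ : L →ₗ[ℤ] (T →ₗ[ℤ] ℤ) := D.pairing.flip with hΨ
  have hinj : Function.Injective Ψ := D.pairing_flip_injective hp
  -- the cokernel has rank zero
  have hq : finrank ℤ ((T →ₗ[ℤ] ℤ) ⧸ LinearMap.range Ψ) = 0 := by
    have h1 := Submodule.finrank_quotient_add_finrank (LinearMap.range Ψ)
    rw [LinearMap.finrank_range_of_inj hinj, Module.finrank_linearMap, Module.finrank_self,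
      mul_one, D.finrank_eq hp] at h1
    omega
  have htors : Module.IsTorsion ℤ ((T →ₗ[ℤ] ℤ) ⧸ LinearMap.range Ψ) :=
    Module.finrank_eq_zero_iff_isTorsion.mp hq
  obtain ⟨⟨N, hN⟩, hNφ⟩ := @htors (Submodule.Quotient.mk φ)
  have hN0 : N ≠ 0 := nonZeroDivisors.ne_zero hN
  have hmem : N • φ ∈ LinearMap.range Ψ := by
    rw [← Submodule.Quotient.mk_eq_zero, Submodule.Quotient.mk_smul]
    exact hNφ
  obtain ⟨f, hf⟩ := hmem
  have hf' : ∀ t : T, D.a 1 (D.ρ t f) = N * φ t := by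
    intro t
    have := LinearMap.congr_fun hf t
    simpa [hΨ] using this
  -- saturation
  obtain ⟨g, hg⟩ := D.sat f N hN0 (fun k hk => by
    obtain ⟨tk, htk, -⟩ := D.exists_t hp k hk
    rw [← htk, hf']
    exact dvd_mul_right _ _)
  refine ⟨g, fun t => ?_⟩
  have h := hf' t
  rw [hg, map_smul, map_smul, smul_eq_mul] at h
  exact mul_left_cancel₀ hN0 h

/-! ### Upper bound -/

theorem upper (hp : p.Prime) (n : ℕ)
    (hUB : ∀ m : ℕ, 1 ≤ m →
      (∃ f : L, ∀ k, 1 ≤ k → (m : ℤ) ∣ D.a k f - (sigmaP p k : ℤ)) → m ∣ n)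
    (m : ℕ) (hm : 1 ≤ m) (χ : T →+* ZMod m) (hχ : ∀ t ∈ D.J, χ t = 0) : m ∣ n := by
  refine hUB m hm ?_
  -- lift `χ` to a linear form
  obtain ⟨φ, hφ⟩ := Module.projective_lifting_property
    (Int.castAddHom (ZMod m)).toIntLinearMap χ.toAddMonoidHom.toIntLinearMap
    (fun y => ZMod.intCast_surjective y)
  have hφ' : ∀ t : T, ((φ t : ℤ) : ZMod m) = χ t := fun t => LinearMap.congr_fun hφ t
  obtain ⟨f, hf⟩ := D.exists_dual hp φ
  refine ⟨f, fun k hk => ?_⟩
  obtain ⟨tk, htk, hJk⟩ := D.exists_t hp k hk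
  rw [← htk, hf, ← ZMod.intCast_eq_intCast_iff_dvd_sub, hφ']
  have := hχ _ hJk
  rw [map_sub, map_natCast, sub_eq_zero] at this
  rw [this]
  simp

/-! ### Lower bound -/

omit [Module.Free ℤ L] [Module.Finite ℤ L] [Module.Free ℤ T] [Module.Finite ℤ T] in
/-- divisibility of all coefficients by `n ≠ 0` is preserved by the Hecke action (saturation) -/
theorem dvd_ρ (n : ℕ) (hn : 1 ≤ n) (s : T) (f : L)
    (hf : ∀ k, 1 ≤ k → (n : ℤ) ∣ D.a k f) : ∀ k, 1 ≤ k → (n : ℤ) ∣ D.a k (D.ρ s f) := by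
  obtain ⟨g, rfl⟩ := D.sat f n (by exact_mod_cast (by omega : n ≠ 0)) hf
  intro k _
  rw [map_smul, map_smul]
  exact Dvd.intro _ rfl

/-- the ideal of `t` with `t h ∈ n L` -/
def annIdeal (n : ℕ) (hn : 1 ≤ n) (h : L) : Ideal T where
  carrier := {t | ∀ k, 1 ≤ k → (n : ℤ) ∣ D.a k (D.ρ t h)}
  add_mem' := by
    intro s t hs ht k hk
    rw [map_add, LinearMap.add_apply, map_add]
    exact dvd_add (hs k hk) (ht k hk)
  zero_mem' := by
    intro k _
    simp
  smul_mem' := by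
    intro s t ht k hk
    rw [smul_eq_mul, D.ρ_mul_apply]
    exact D.dvd_ρ n hn s _ ht k hk

omit [Module.Free ℤ L] [Module.Finite ℤ L] [Module.Free ℤ T] [Module.Finite ℤ T] in
theorem mem_annIdeal (n : ℕ) (hn : 1 ≤ n) (h : L) (t : T) :
    t ∈ D.annIdeal n hn h ↔ ∀ k, 1 ≤ k → (n : ℤ) ∣ D.a k (D.ρ t h) := Iff.rfl

omit [Module.Free ℤ L] [Module.Finite ℤ L] [Module.Free ℤ T] [Module.Finite ℤ T] in
theorem gen_eigen (hp : p.Prime) (n : ℕ) (h : L) (c : ℤ)
    (hh : ∀ k, 1 ≤ k → (n : ℤ) ∣ D.a k h - c * (sigmaP p k : ℤ)) (ℓ : Nat.Primes) :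
    ∀ k, 1 ≤ k → (n : ℤ) ∣
      D.a k (D.ρ (D.π (X ℓ)) h - (ModularCurve.eisensteinSystem p ℓ) • h) := by
  intro k hk
  have hℓ : (ℓ : ℕ).Prime := ℓ.2
  have hkℓ : 1 ≤ k * (ℓ : ℕ) := Nat.mul_pos hk hℓ.pos
  obtain ⟨w1, hw1⟩ := hh (k * ℓ) hkℓ
  obtain ⟨w3, hw3⟩ := hh k hk
  rw [map_sub, map_smul, smul_eq_mul]
  by_cases hℓp : (ℓ : ℕ) = p
  · rw [D.a_U ℓ hℓp, ModularCurve.eisensteinSystem_of_dvd (show ((ℓ : ℕ) ∣ p) from hℓp ▸ dvd_rfl)]
    have hσ : (sigmaP p (k * ℓ) : ℤ) = sigmaP p k := by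
      rw [hℓp, sigmaP_mul_self p hp]
    exact ⟨w1 - w3, by linear_combination hw1 - hw3 + c * hσ⟩
  · have hndvd : ¬ (ℓ : ℕ) ∣ p := fun hd => hℓp ((Nat.prime_dvd_prime_iff_eq hℓ hp).mp hd)
    rw [D.a_T ℓ hℓp, ModularCurve.eisensteinSystem_of_not_dvd hndvd]
    have hσ := sigmaP_hecke p hp ℓ hℓ hℓp k hk
    by_cases hdvd : (ℓ : ℕ) ∣ k
    · rw [if_pos hdvd] at hσ ⊢
      have hdivpos : 1 ≤ k / (ℓ : ℕ) := Nat.div_pos (Nat.le_of_dvd hk hdvd) hℓ.pos
      obtain ⟨w2, hw2⟩ := hh (k / ℓ) hdivpos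
      have hσ' : (sigmaP p (k * ℓ) : ℤ) + (ℓ : ℤ) * (sigmaP p (k / ℓ) : ℤ) =
          (1 + (ℓ : ℤ)) * (sigmaP p k : ℤ) := by exact_mod_cast hσ
      exact ⟨w1 + (ℓ : ℤ) * w2 - (1 + (ℓ : ℤ)) * w3, by
        linear_combination hw1 + (ℓ : ℤ) * hw2 - (1 + (ℓ : ℤ)) * hw3 + c * hσ'⟩
    · rw [if_neg hdvd, add_zero] at hσ ⊢
      have hσ' : (sigmaP p (k * ℓ) : ℤ) = (1 + (ℓ : ℤ)) * (sigmaP p k : ℤ) := by exact_mod_cast hσ
      exact ⟨w1 - (1 + (ℓ : ℤ)) * w3, by
        linear_combination hw1 - (1 + (ℓ : ℤ)) * hw3 + c * hσ'⟩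

omit [Module.Free ℤ L] [Module.Finite ℤ L] [Module.Free ℤ T] [Module.Finite ℤ T] in
theorem poly_eigen (hp : p.Prime) (n : ℕ) (hn : 1 ≤ n) (h : L) (c : ℤ)
    (hh : ∀ k, 1 ≤ k → (n : ℤ) ∣ D.a k h - c * (sigmaP p k : ℤ)) (x : ModularCurve.HeckeAlg) :
    ∀ k, 1 ≤ k → (n : ℤ) ∣ D.a k (D.ρ (D.π x) h -
      (MvPolynomial.aeval (R := ℤ) (ModularCurve.eisensteinSystem p) x : ℤ) • h) := by
  induction x using MvPolynomial.induction_on with
  | C a =>
    intro k _
    have h3 : D.π (C a) = (a : T) := eq_intCast (D.π.comp C) a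
    rw [h3, D.ρ_intCast_apply, MvPolynomial.aeval_C]
    simp
  | add x y hx hy =>
    intro k hk
    have e : D.ρ (D.π (x + y)) h -
        (MvPolynomial.aeval (R := ℤ) (ModularCurve.eisensteinSystem p) (x + y) : ℤ) • h =
        (D.ρ (D.π x) h - (MvPolynomial.aeval (R := ℤ) (ModularCurve.eisensteinSystem p) x : ℤ) • h)
        + (D.ρ (D.π y) h -
          (MvPolynomial.aeval (R := ℤ) (ModularCurve.eisensteinSystem p) y : ℤ) • h) := by
      rw [map_add, map_add, map_add, LinearMap.add_apply, add_smul]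
      abel
    rw [e, map_add]
    exact dvd_add (hx k hk) (hy k hk)
  | mul_X x ℓ hx =>
    intro k hk
    have e : D.ρ (D.π (x * X ℓ)) h -
        (MvPolynomial.aeval (R := ℤ) (ModularCurve.eisensteinSystem p) (x * X ℓ) : ℤ) • h =
        D.ρ (D.π x) (D.ρ (D.π (X ℓ)) h - (ModularCurve.eisensteinSystem p ℓ) • h)
        + (ModularCurve.eisensteinSystem p ℓ) • (D.ρ (D.π x) h -
          (MvPolynomial.aeval (R := ℤ) (ModularCurve.eisensteinSystem p) x : ℤ) • h) := by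
      rw [map_mul, D.ρ_mul_apply, map_mul, MvPolynomial.aeval_X, map_sub, map_smul, smul_sub,
        smul_smul, mul_comm (ModularCurve.eisensteinSystem p ℓ)]
      abel
    rw [e, map_add, map_smul, smul_eq_mul]
    exact dvd_add (D.dvd_ρ n hn _ _ (D.gen_eigen hp n h c hh ℓ) k hk)
      (Dvd.dvd.mul_left (hx k hk) _)

omit [Module.Free ℤ L] [Module.Finite ℤ L] [Module.Free ℤ T] [Module.Finite ℤ T] in
theorem J_le_annIdeal (hp : p.Prime) (n : ℕ) (hn : 1 ≤ n) (h : L) (c : ℤ)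
    (hh : ∀ k, 1 ≤ k → (n : ℤ) ∣ D.a k h - c * (sigmaP p k : ℤ)) :
    D.J ≤ D.annIdeal n hn h := by
  rw [Ideal.map_le_iff_le_comap]
  intro x hx
  rw [ModularCurve.eisensteinIdeal, ModularCurve.mem_eigenIdeal_iff] at hx
  rw [Ideal.mem_comap, mem_annIdeal]
  intro k hk
  have := D.poly_eigen hp n hn h c hh x k hk
  rwa [hx, zero_smul, sub_zero] at this

omit [Module.Free ℤ L] [Module.Finite ℤ L] [Module.Free ℤ T] [Module.Finite ℤ T] in
theorem lower (hp : p.Prime) (n : ℕ) (hn : 1 ≤ n)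
    (hLB : ∃ (h : L) (c : ℤ), IsCoprime c (n : ℤ) ∧
      ∀ k, 1 ≤ k → (n : ℤ) ∣ D.a k h - c * (sigmaP p k : ℤ))
    (j : ℤ) (hj : (j : T) ∈ D.J) : (n : ℤ) ∣ j := by
  obtain ⟨h, c, hc, hh⟩ := hLB
  have h1 := D.J_le_annIdeal hp n hn h c hh hj
  rw [mem_annIdeal] at h1
  have h2 := h1 1 le_rfl
  rw [D.ρ_intCast_apply, map_smul, smul_eq_mul] at h2
  obtain ⟨w, hw⟩ := hh 1 le_rfl
  rw [sigmaP_one p hp] at hw
  have h3 : (n : ℤ) ∣ c * j := by
    obtain ⟨v, hv⟩ := h2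
    exact ⟨v - j * w, by push_cast at hw; linear_combination hv - j * hw⟩
  exact hc.symm.dvd_of_dvd_mul_left h3

/-! ### The index -/

theorem card_quotient_eq (hp : p.Prime) (n : ℕ) (hn : 1 ≤ n)
    (hUB : ∀ m : ℕ, 1 ≤ m →
      (∃ f : L, ∀ k, 1 ≤ k → (m : ℤ) ∣ D.a k f - (sigmaP p k : ℤ)) → m ∣ n)
    (hLB : ∃ (h : L) (c : ℤ), IsCoprime c (n : ℤ) ∧
      ∀ k, 1 ≤ k → (n : ℤ) ∣ D.a k h - c * (sigmaP p k : ℤ)) :
    Nat.card (T ⧸ Ideal.map D.π (ModularCurve.eisensteinIdeal p)) = n := by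
  set q : ℤ →+* T ⧸ D.J := Int.castRingHom _ with hq
  have hsurj : Function.Surjective q := by
    intro y
    obtain ⟨t, rfl⟩ := Ideal.Quotient.mk_surjective y
    obtain ⟨ε, hε⟩ := D.exists_int_sub_mem t
    refine ⟨ε, ?_⟩
    rw [hq, eq_intCast, ← map_intCast (Ideal.Quotient.mk D.J), eq_comm, Ideal.Quotient.eq]
    exact hε
  set K : Ideal ℤ := RingHom.ker q with hK
  set m : ℕ := Ideal.absNorm K with hm
  have hKm : Ideal.span {(m : ℤ)} = K := Int.ideal_span_absNorm_eq_self K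
  have e1 : ℤ ⧸ K ≃+* T ⧸ D.J := RingHom.quotientKerEquivOfSurjective hsurj
  have hmemK : ∀ j : ℤ, j ∈ K ↔ (j : T) ∈ D.J := by
    intro j
    rw [hK, RingHom.mem_ker, hq, eq_intCast, ← map_intCast (Ideal.Quotient.mk D.J),
      Ideal.Quotient.eq_zero_iff_mem]
  -- the cardinality is `m`
  have hcard : Nat.card (T ⧸ D.J) = m := by
    rw [← Nat.card_congr e1.toEquiv, ← hKm, Nat.card_congr (Int.quotientSpanNatEquivZMod m).toEquiv,
      Nat.card_zmod]
  show Nat.card (T ⧸ D.J) = n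
  rw [hcard]
  -- `n ∣ m`
  have h1 : n ∣ m := by
    have hmK : (m : ℤ) ∈ K := by
      rw [← hKm]; exact Ideal.mem_span_singleton_self _
    have := D.lower hp n hn hLB m ((hmemK _).mp hmK)
    exact_mod_cast this
  -- ring homs `T → ZMod m'` killing `J` for `m' ∣ m`
  have hχ : ∀ m' : ℕ, m' ∣ m → ∃ χ : T →+* ZMod m', ∀ t ∈ D.J, χ t = 0 := by
    intro m' hmm'
    have hker : ∀ a ∈ K, Int.castRingHom (ZMod m') a = 0 := by
      intro a ha
      rw [← hKm, Ideal.mem_span_singleton] at ha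
      rw [eq_intCast, ZMod.intCast_zmod_eq_zero_iff_dvd]
      exact dvd_trans (by exact_mod_cast hmm') ha
    refine ⟨((Ideal.Quotient.lift K (Int.castRingHom (ZMod m')) hker).comp
      e1.symm.toRingHom).comp (Ideal.Quotient.mk D.J), fun t ht => ?_⟩
    rw [RingHom.comp_apply, Ideal.Quotient.eq_zero_iff_mem.mpr ht, map_zero]
  rcases Nat.eq_zero_or_pos m with hm0 | hmpos
  · exfalso
    obtain ⟨χ, hχ'⟩ := hχ (n + 1) (by rw [hm0]; exact dvd_zero _)
    have := D.upper hp n hUB (n + 1) (by omega) χ hχ'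
    have := Nat.le_of_dvd (by omega) this
    omega
  · obtain ⟨χ, hχ'⟩ := hχ m dvd_rfl
    exact Nat.dvd_antisymm (D.upper hp n hUB m hmpos χ hχ') h1

end AlgData

end Fermat.Agent.S16.H635
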