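import Mathlib
import Fermat.Prelude.Def_CuspForm_HeckeLocal
import Fermat.Prelude.Def_CuspForm_HeckeEvalForms
import Fermat.Prelude.Def_HeckeGalois_EichlerShimura
import Fermat.Prelude.Def_ModularCurve_ModularUnit
import Fermat.Prelude.Sol.S_CuspForm_intLattice_fg
import Fermat.Prelude.Thm_ModularFormClass_qCoeff_heckeT
import Fermat.Prelude.Thm_ModularFormClass_qCoeff_heckeU
import Fermat.Agent.S16.H635.Alg

/-!
# S16, WP ALG (helper635): the concrete `AlgData` of `intLattice p 2` and `heckeLatticeAlgebra p ∅`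
-/

set_option autoImplicit false

noncomputable section

namespace Fermat.Agent.S16.H635

open CuspForm ModularFormClass UpperHalfPlane
open P2MW.S_CuspForm_intLattice_fg.W3WsD (mem_intLattice_iff qCoeff_add qCoeff_zsmul hΓ trunc
  trunc_injective)

section Lattice

variable (N : ℕ)

theorem exists_int_qCoeff (f : ↥(intLattice N 2)) (k : ℕ) :
    ∃ m : ℤ, qCoeff (⇑(f : CuspForm (CongruenceSubgroup.Gamma0 N) 2)) k = (m : ℂ) :=
  (mem_intLattice_iff f.1).1 f.2 k

/-- the `k`-th `q`-coefficient of an element of the integral lattice, as an integer -/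
def aZ (k : ℕ) (f : ↥(intLattice N 2)) : ℤ := Classical.choose (exists_int_qCoeff N f k)

theorem aZ_spec (k : ℕ) (f : ↥(intLattice N 2)) :
    ((aZ N k f : ℤ) : ℂ) = qCoeff (⇑(f : CuspForm (CongruenceSubgroup.Gamma0 N) 2)) k :=
  (Classical.choose_spec (exists_int_qCoeff N f k)).symm

theorem aZ_eq_iff (k : ℕ) (f : ↥(intLattice N 2)) (m : ℤ) :
    aZ N k f = m ↔ qCoeff (⇑(f : CuspForm (CongruenceSubgroup.Gamma0 N) 2)) k = (m : ℂ) := by
  rw [← aZ_spec]
  exact Int.cast_inj.symm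

/-- the coefficient functionals -/
def aLin (k : ℕ) : ↥(intLattice N 2) →ₗ[ℤ] ℤ where
  toFun := aZ N k
  map_add' f g := by
    rw [aZ_eq_iff, Submodule.coe_add, qCoeff_add]
    push_cast
    rw [aZ_spec, aZ_spec]
  map_smul' c f := by
    rw [aZ_eq_iff, Submodule.coe_smul, qCoeff_zsmul]
    simp [aZ_spec]

@[simp] theorem aLin_apply (k : ℕ) (f : ↥(intLattice N 2)) : aLin N k f = aZ N k f := rfl

theorem qCoeff_zero_cusp (f : CuspForm (CongruenceSubgroup.Gamma0 N) 2) : qCoeff (⇑f) 0 = 0 :=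
  CuspFormClass.qExpansion_coeff_zero f one_pos (hΓ N)

theorem lat_sep [NeZero N] (f : ↥(intLattice N 2)) (h : ∀ k, 1 ≤ k → aLin N k f = 0) : f = 0 := by
  have h0 : ∀ k, qCoeff (⇑(f : CuspForm (CongruenceSubgroup.Gamma0 N) 2)) k = 0 := by
    intro k
    rcases Nat.eq_zero_or_pos k with rfl | hk
    · exact qCoeff_zero_cusp N f.1
    · have := h k hk
      rw [aLin_apply, aZ_eq_iff] at this
      simpa using this
  have h1 : trunc N 2 (f : CuspForm (CongruenceSubgroup.Gamma0 N) 2) = trunc N 2 0 := by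
    rw [map_zero]
    funext i
    exact h0 i
  exact Subtype.ext (trunc_injective N 2 h1)

theorem qCoeff_smul_cusp (c : ℂ) (f : CuspForm (CongruenceSubgroup.Gamma0 N) 2) (k : ℕ) :
    qCoeff (⇑(c • f)) k = c * qCoeff (⇑f) k := by
  have h1 : ⇑(c • f) = c • ⇑f := by
    ext z
    simp
  simp only [qCoeff, h1]
  rw [ModularForm.qExpansion_smul one_pos (hΓ N) c f]
  simp

theorem lat_sat (f : ↥(intLattice N 2)) (M : ℤ) (hM : M ≠ 0)
    (h : ∀ k, 1 ≤ k → M ∣ aLin N k f) : ∃ g : ↥(intLattice N 2), f = M • g := by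
  have hMC : (M : ℂ) ≠ 0 := by exact_mod_cast hM
  set g0 : CuspForm (CongruenceSubgroup.Gamma0 N) 2 := ((M : ℂ)⁻¹) • (f : CuspForm _ 2) with hg0
  have hg : g0 ∈ intLattice N 2 := by
    rw [mem_intLattice_iff]
    intro k
    rcases Nat.eq_zero_or_pos k with rfl | hk
    · exact ⟨0, by rw [qCoeff_zero_cusp]; simp⟩
    · obtain ⟨w, hw⟩ := h k hk
      refine ⟨w, ?_⟩
      rw [hg0, qCoeff_smul_cusp, ← aZ_spec, ← aLin_apply, hw]
      push_cast
      field_simp
  refine ⟨⟨g0, hg⟩, Subtype.ext ?_⟩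
  rw [Submodule.coe_smul]
  show (f : CuspForm (CongruenceSubgroup.Gamma0 N) 2) = M • g0
  ext z
  have : (M • g0) z = (M : ℂ) * g0 z := by simp
  rw [this]
  simp only [hg0, smul_apply, smul_eq_mul]
  field_simp

end Lattice

section Hecke

variable (N : ℕ) [NeZero N]

theorem heckeEvalForms_surjective (k : ℤ) : Function.Surjective (heckeEvalForms N k) := by
  intro x
  obtain ⟨x, hx⟩ := x
  have key : ∀ (y : Module.End ℂ (CuspForm (CongruenceSubgroup.Gamma0 N) k))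
      (hy : y ∈ Algebra.adjoin ℤ (heckeGenerators N k ∅)),
      ∃ z : ModularCurve.HeckeAlg, heckeEvalForms N k z = ⟨y, hy⟩ := by
    intro y hy
    induction hy using Algebra.adjoin_induction with
    | mem y hy =>
      rcases hy with ⟨ℓ, hℓ, hℓN, -, rfl⟩ | ⟨q, hqN, hq, -, rfl⟩
      · refine ⟨ModularCurve.heckeGen ⟨ℓ, hℓ⟩, ?_⟩
        rw [heckeEvalForms_heckeGen_of_not_dvd (show ¬ ((⟨ℓ, hℓ⟩ : Nat.Primes) : ℕ) ∣ N from hℓN)]
        rfl
      · refine ⟨ModularCurve.heckeGen ⟨q, hq⟩, ?_⟩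
        rw [heckeEvalForms_heckeGen_of_dvd (show ((⟨q, hq⟩ : Nat.Primes) : ℕ) ∣ N from hqN)]
        rfl
    | algebraMap r =>
      refine ⟨MvPolynomial.C r, ?_⟩
      rw [heckeEvalForms_C]
      rfl
    | add y z hy hz iy iz =>
      obtain ⟨a, ha⟩ := iy
      obtain ⟨b, hb⟩ := iz
      refine ⟨a + b, ?_⟩
      rw [map_add, ha, hb]
      rfl
    | mul y z hy hz iy iz =>
      obtain ⟨a, ha⟩ := iy
      obtain ⟨b, hb⟩ := iz
      refine ⟨a * b, ?_⟩
      rw [map_mul, ha, hb]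
      rfl
  exact key x hx

/-- the structure map `ℤ[X_ℓ] → 𝕋` -/
def piHom : ModularCurve.HeckeAlg →+* ↥(heckeLatticeAlgebra N ∅) :=
  (latticeRestrictHom N ∅).toRingHom.comp (heckeEvalForms N 2)

theorem piHom_surjective : Function.Surjective (piHom N) :=
  (latticeRestrictHom_surjective N ∅).comp (heckeEvalForms_surjective N 2)

/-- the tautological action of `𝕋` on the lattice -/
def rhoHom : ↥(heckeLatticeAlgebra N ∅) →+* Module.End ℤ ↥(intLattice N 2) :=
  (heckeLatticeAlgebra N ∅).val.toRingHom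

theorem rhoHom_injective : Function.Injective (rhoHom N) := Subtype.val_injective

theorem coe_rho_pi_apply (x : ModularCurve.HeckeAlg) (f : ↥(intLattice N 2)) :
    ((rhoHom N (piHom N x) f : ↥(intLattice N 2)) : CuspForm (CongruenceSubgroup.Gamma0 N) 2) =
      (heckeEvalForms N 2 x : Module.End ℂ (CuspForm (CongruenceSubgroup.Gamma0 N) 2))
        (f : CuspForm (CongruenceSubgroup.Gamma0 N) 2) := rfl

theorem aLin_T (ℓ : Nat.Primes) (hℓ : ¬ (ℓ : ℕ) ∣ N) (k : ℕ) (f : ↥(intLattice N 2)) :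
    aLin N k (rhoHom N (piHom N (MvPolynomial.X ℓ)) f) =
      aLin N (k * ℓ) f + if (ℓ : ℕ) ∣ k then (ℓ : ℤ) * aLin N (k / ℓ) f else 0 := by
  rw [aLin_apply, aZ_eq_iff, coe_rho_pi_apply]
  have h1 : heckeEvalForms N 2 (MvPolynomial.X ℓ) = heckeAlgebra.T ℓ.2 hℓ (Set.notMem_empty _) :=
    heckeEvalForms_heckeGen_of_not_dvd hℓ
  rw [h1, heckeAlgebra.coe_T, CuspForm.coe_heckeTLin_apply,
    ModularFormClass.qCoeff_heckeT (f : CuspForm (CongruenceSubgroup.Gamma0 N) 2) (hΓ N)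
      ℓ.2.ne_zero k, ModularForm.coeffHeckeT_apply]
  push_cast
  rw [aLin_apply, aZ_spec]
  split_ifs
  · rw [aLin_apply, aZ_spec]
    simp
  · rfl

theorem aLin_U (ℓ : Nat.Primes) (hℓ : (ℓ : ℕ) ∣ N) (k : ℕ) (f : ↥(intLattice N 2)) :
    aLin N k (rhoHom N (piHom N (MvPolynomial.X ℓ)) f) = aLin N (k * ℓ) f := by
  rw [aLin_apply, aZ_eq_iff, coe_rho_pi_apply]
  have h1 : heckeEvalForms N 2 (MvPolynomial.X ℓ) = heckeAlgebra.U ℓ.2 hℓ (Set.notMem_empty _) :=
    heckeEvalForms_heckeGen_of_dvd hℓ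
  rw [h1, heckeAlgebra.coe_U, CuspForm.coe_heckeULin_apply,
    ModularFormClass.qCoeff_heckeU (f : CuspForm (CongruenceSubgroup.Gamma0 N) 2) (hΓ N)
      ℓ.2.ne_zero k, ModularForm.coeffHeckeU_apply, aLin_apply, aZ_spec]

end Hecke

section Data

variable (p : ℕ) [Fact p.Prime]

/-- the concrete `AlgData` for prime level `p` -/
def algData : AlgData p ↥(intLattice p 2) ↥(heckeLatticeAlgebra p ∅) where
  ρ := rhoHom p
  ρ_inj := rhoHom_injective p
  a := aLin p
  sep := lat_sep p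
  sat := lat_sat p
  π := piHom p
  π_surj := piHom_surjective p
  a_T ℓ hℓ k f := aLin_T p ℓ
    (fun h => hℓ ((Nat.prime_dvd_prime_iff_eq ℓ.2 (Fact.out : p.Prime)).mp h)) k f
  a_U ℓ hℓ k f := aLin_U p ℓ (hℓ ▸ dvd_rfl) k f

end Data

end Fermat.Agent.S16.H635
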