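import Mathlib
import Fermat.Agent.S16.Defs
import Fermat.Agent.S20.C0_helper980
import Fermat.Agent.S20.H872.Index
import Fermat.Agent.S16.H635.Lat

/-!
# S16, WP ALG (helper635): `result_of_forms` and `result_small`

Exactly the two skeleton statements of work package ALG
(`origin/helper556:Fermat/Agent/S16/Skeleton.lean`), with the interface predicates
`HasEis`, `CuspCrit`, `UpperBound`, `LowerBound` written out (definitionally equal).
-/

set_option autoImplicit false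

noncomputable section

namespace Fermat.Agent.S16.H635

open UpperHalfPlane ModularForm CongruenceSubgroup MatrixGroups ModularFormClass
open Fermat.Agent.S20 (MF SF SF_le_MF)
open P2MW.S_CuspForm_intLattice_fg.W3WsD (mem_intLattice_iff hΓ)

section FunctionLevel

variable {N : ℕ} [NeZero N]

theorem analyticAt_of_mem_MF {k : ℤ} {F : ℍ → ℂ} (hF : F ∈ MF (Gamma0 N) k) :
    AnalyticAt ℂ (cuspFunction 1 F) 0 :=
  ModularFormClass.analyticAt_cuspFunction_zero
    (Fermat.Agent.S20.C980.ofMF (Gamma0 N) hF) one_pos (hΓ N)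

theorem qCoeff_sub_of_mem {k : ℤ} {F G : ℍ → ℂ} (hF : F ∈ MF (Gamma0 N) k)
    (hG : G ∈ MF (Gamma0 N) k) (n : ℕ) : qCoeff (F - G) n = qCoeff F n - qCoeff G n := by
  simp only [qCoeff]
  rw [UpperHalfPlane.qExpansion_sub (analyticAt_of_mem_MF hF) (analyticAt_of_mem_MF hG), map_sub]

theorem qCoeff_smul_of_mem {k : ℤ} {F : ℍ → ℂ} (hF : F ∈ MF (Gamma0 N) k) (c : ℂ) (n : ℕ) :
    qCoeff (c • F) n = c * qCoeff F n := by
  simp only [qCoeff]
  rw [UpperHalfPlane.qExpansion_smul (analyticAt_of_mem_MF hF) c]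
  simp

theorem coe_mem_MF_of_cusp (f : CuspForm (Gamma0 N) 2) : (⇑f : ℍ → ℂ) ∈ MF (Gamma0 N) 2 :=
  SF_le_MF _ _ (Fermat.Agent.S20.C980.coe_mem_SF (Gamma0 N) f)

end FunctionLevel

theorem eisensteinNumerator_pos (p : ℕ) (hp : 2 ≤ p) : 1 ≤ ModularCurve.eisensteinNumerator p := by
  unfold ModularCurve.eisensteinNumerator
  have h1 : 0 < p - 1 := by omega
  exact Nat.div_pos (Nat.le_of_dvd h1 (Nat.gcd_dvd_left _ _)) (Nat.gcd_pos_of_pos_left _ h1)

/-- WP ALG (main): the skeleton statement `Skel.result_of_forms`. -/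
theorem result_of_forms (p : ℕ) [Fact p.Prime] (hp5 : 5 ≤ p)
    (hE : ∃ e ∈ MF (Gamma0 p) 2, qCoeff e 0 = ((p : ℂ) - 1) / 24 ∧
      ∀ k : ℕ, 1 ≤ k → qCoeff e k = (sigmaP p k : ℂ))
    (hC : ∀ G ∈ MF (Gamma0 p) 2, qCoeff G 0 = 0 → G ∈ SF (Gamma0 p) 2)
    (hUB : ∀ G ∈ MF (Gamma0 p) 2, IntFrom1 G →
      ∃ m : ℤ, 24 * qCoeff G 0 = (Nat.gcd (p - 1) 12 : ℂ) * (m : ℂ))
    (hLB : ∃ G ∈ MF (Gamma0 p) 2, qCoeff G 0 = 1 / 2 ∧ IntFrom1 G) :
    Nat.card (↥(CuspForm.heckeLatticeAlgebra p ∅) ⧸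
        Ideal.map ((CuspForm.latticeRestrictHom p ∅).toRingHom.comp (CuspForm.heckeEvalForms p 2))
          (ModularCurve.eisensteinIdeal p)) =
      ModularCurve.eisensteinNumerator p := by
  have hp : p.Prime := Fact.out
  have := CuspForm.intLattice.moduleFinite p
  have := CuspForm.intLattice.moduleFree p
  obtain ⟨e, he, he0, hek⟩ := hE
  set ν : ℕ := Nat.gcd (p - 1) 12 with hν
  set n : ℕ := ModularCurve.eisensteinNumerator p with hn
  have hn1 : 1 ≤ n := eisensteinNumerator_pos p (by omega)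
  have hνpos : 0 < ν := Nat.gcd_pos_of_pos_right _ (by norm_num)
  have hνn : ν * n = p - 1 := Nat.mul_div_cancel' (Nat.gcd_dvd_left _ _)
  have hp1 : ((p - 1 : ℕ) : ℂ) = (p : ℂ) - 1 := by
    rw [Nat.cast_sub (by omega : 1 ≤ p)]; simp
  refine (algData p).card_quotient_eq hp n hn1 ?_ ?_
  · -- (UB')
    rintro m hm ⟨f, hf⟩
    have hmC : (m : ℂ) ≠ 0 := by exact_mod_cast (by omega : m ≠ 0)
    have hfM : (⇑(f : CuspForm (Gamma0 p) 2) : ℍ → ℂ) ∈ MF (Gamma0 p) 2 := coe_mem_MF_of_cusp f.1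
    have hd : e - ⇑(f : CuspForm (Gamma0 p) 2) ∈ MF (Gamma0 p) 2 := Submodule.sub_mem _ he hfM
    set G : ℍ → ℂ := ((m : ℂ)⁻¹) • (e - ⇑(f : CuspForm (Gamma0 p) 2)) with hG
    have hGM : G ∈ MF (Gamma0 p) 2 := Submodule.smul_mem _ _ hd
    have hGq : ∀ k, qCoeff G k =
        (m : ℂ)⁻¹ * (qCoeff e k - qCoeff (⇑(f : CuspForm (Gamma0 p) 2)) k) := by
      intro k
      rw [hG, qCoeff_smul_of_mem hd, qCoeff_sub_of_mem he hfM]
    have hGint : IntFrom1 G := by
      intro k hk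
      obtain ⟨w, hw⟩ := hf k hk
      refine ⟨-w, ?_⟩
      have hw' : (algData p).a k f = aZ p k f := rfl
      rw [hw'] at hw
      have hwC : ((aZ p k f : ℤ) : ℂ) - (sigmaP p k : ℂ) = (m : ℂ) * (w : ℂ) := by
        exact_mod_cast congrArg (Int.cast : ℤ → ℂ) hw
      rw [hGq, hek k hk, ← aZ_spec]
      push_cast
      field_simp
      linear_combination -hwC
    obtain ⟨j, hj⟩ := hUB G hGM hGint
    rw [hGq, he0, qCoeff_zero_cusp, sub_zero] at hj
    have h1 : ((p : ℂ) - 1) = (m : ℂ) * ((ν : ℂ) * (j : ℂ)) := by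
      have := hj
      field_simp at this
      linear_combination this
    have h2 : ((ν * n : ℕ) : ℤ) = (m : ℤ) * ((ν : ℤ) * j) := by
      rw [hνn]
      have : (((p - 1 : ℕ) : ℤ) : ℂ) = (((m : ℤ) * ((ν : ℤ) * j) : ℤ) : ℂ) := by
        push_cast
        rw [hp1]
        exact h1
      exact_mod_cast this
    have h3 : (n : ℤ) = (m : ℤ) * j := by
      have hν0 : (ν : ℤ) ≠ 0 := by exact_mod_cast hνpos.ne'
      push_cast at h2
      apply mul_left_cancel₀ hν0
      linear_combination h2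
    exact Int.natCast_dvd_natCast.mp ⟨j, h3⟩
  · -- (LB')
    obtain ⟨G1, hG1, hG10, hG1int⟩ := hLB
    set c : ℕ := 12 / ν with hc
    have hνc : ν * c = 12 := Nat.mul_div_cancel' (Nat.gcd_dvd_right _ _)
    have hcop : Nat.Coprime c n := by
      have := Nat.coprime_div_gcd_div_gcd (m := p - 1) (n := 12) hνpos
      exact this.symm
    have hce : ((c : ℂ)) • e ∈ MF (Gamma0 p) 2 := Submodule.smul_mem _ _ he
    have hnG : ((n : ℂ)) • G1 ∈ MF (Gamma0 p) 2 := Submodule.smul_mem _ _ hG1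
    set h : ℍ → ℂ := (c : ℂ) • e - (n : ℂ) • G1 with hh
    have hhM : h ∈ MF (Gamma0 p) 2 := Submodule.sub_mem _ hce hnG
    have hhq : ∀ k, qCoeff h k = (c : ℂ) * qCoeff e k - (n : ℂ) * qCoeff G1 k := by
      intro k
      rw [hh, qCoeff_sub_of_mem hce hnG, qCoeff_smul_of_mem he, qCoeff_smul_of_mem hG1]
    have hνnC : (ν : ℂ) * (n : ℂ) = (p : ℂ) - 1 := by
      rw [← hp1, ← hνn]; push_cast; ring
    have hνcC : (ν : ℂ) * (c : ℂ) = 12 := by
      have : ((ν * c : ℕ) : ℂ) = ((12 : ℕ) : ℂ) := by rw [hνc]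
      push_cast at this
      exact this
    have hνC : (ν : ℂ) ≠ 0 := by exact_mod_cast hνpos.ne'
    have hh0 : qCoeff h 0 = 0 := by
      rw [hhq, he0, hG10, ← hνnC]
      have : (c : ℂ) = 12 / (ν : ℂ) := by
        field_simp
        linear_combination hνcC
      rw [this]
      field_simp
      ring
    have hhS : h ∈ SF (Gamma0 p) 2 := hC h hhM hh0
    set hc' : CuspForm (Gamma0 p) 2 := Fermat.Agent.S20.C980.ofSF (Gamma0 p) hhS with hhc'
    have hcoe : (⇑hc' : ℍ → ℂ) = h := rfl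
    have hmem : hc' ∈ CuspForm.intLattice p 2 := by
      rw [mem_intLattice_iff]
      intro k
      rcases Nat.eq_zero_or_pos k with rfl | hk
      · exact ⟨0, by rw [hcoe, hh0]; simp⟩
      · obtain ⟨w, hw⟩ := hG1int k hk
        refine ⟨(c : ℤ) * (sigmaP p k : ℤ) - (n : ℤ) * w, ?_⟩
        rw [hcoe, hhq, hek k hk, hw]
        push_cast
        ring
    refine ⟨⟨hc', hmem⟩, (c : ℤ), Nat.isCoprime_iff_coprime.mpr hcop, fun k hk => ?_⟩
    obtain ⟨w, hw⟩ := hG1int k hk
    refine ⟨-w, ?_⟩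
    have hw' : (algData p).a k ⟨hc', hmem⟩ = aZ p k ⟨hc', hmem⟩ := rfl
    rw [hw']
    have : ((aZ p k ⟨hc', hmem⟩ : ℤ) : ℂ) =
        (((c : ℤ) * (sigmaP p k : ℤ) - (n : ℤ) * w : ℤ) : ℂ) := by
      rw [aZ_spec]
      show qCoeff h k = _
      rw [hhq, hek k hk, hw]
      push_cast
      ring
    have h2 : aZ p k ⟨hc', hmem⟩ = (c : ℤ) * (sigmaP p k : ℤ) - (n : ℤ) * w := by
      exact_mod_cast this
    rw [h2]
    ring

/-! ### Small primes -/

open P2MW.S_CuspForm_intLattice_fg.W3WsD (trunc trunc_injective sturmB) in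
theorem cuspForm_eq_zero_of_index_le (N : ℕ) [NeZero N] (hidx : (Gamma0 N).index ≤ 5)
    (f : CuspForm (Gamma0 N) 2) : f = 0 := by
  have hB : sturmB N 2 = 0 := by
    unfold sturmB
    have : ((2 : ℤ) * ((Gamma0 N).index : ℤ)).toNat / 12 = 0 := by omega
    exact this
  apply trunc_injective N 2
  rw [map_zero]
  funext i
  have hi : (i : ℕ) = 0 := by
    have := i.2
    omega
  show qCoeff (⇑f) (i : ℕ) = 0
  rw [hi]
  exact qCoeff_zero_cusp N f

theorem index_Gamma0_prime_small (p : ℕ) (hp : p.Prime) (hp5 : p < 5) :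
    (Gamma0 p).index ≤ 5 := by
  rw [Fermat.Agent.S20.H872.index_Gamma0 p hp.ne_zero]
  have h1 : ModularCurve.dedekindPsi p = p + 1 := by
    have := Fermat.Agent.S20.H872.dedekindPsi_mul_prime_of_not_dvd (N := 1) (p := p)
      one_ne_zero hp (fun h => hp.one_lt.ne' (Nat.dvd_one.mp h))
    rwa [one_mul, ModularCurve.dedekindPsi_one, mul_one] at this
  rw [h1]
  have h23 : p = 2 ∨ p = 3 := by
    interval_cases p
    · exact absurd hp (by decide)
    · exact absurd hp (by decide)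
    · exact Or.inl rfl
    · exact Or.inr rfl
    · exact absurd hp (by decide)
  omega

/-- WP ALG (small primes): the skeleton statement `Skel.result_small`. -/
theorem result_small (p : ℕ) [Fact p.Prime] (hp : p < 5) :
    Nat.card (↥(CuspForm.heckeLatticeAlgebra p ∅) ⧸
        Ideal.map ((CuspForm.latticeRestrictHom p ∅).toRingHom.comp (CuspForm.heckeEvalForms p 2))
          (ModularCurve.eisensteinIdeal p)) =
      ModularCurve.eisensteinNumerator p := by
  have hpp : p.Prime := Fact.out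
  have hidx := index_Gamma0_prime_small p hpp hp
  have hL : Subsingleton ↥(CuspForm.intLattice p 2) :=
    ⟨fun f g => Subtype.ext ((cuspForm_eq_zero_of_index_le p hidx f.1).trans
      (cuspForm_eq_zero_of_index_le p hidx g.1).symm)⟩
  have hT : Subsingleton ↥(CuspForm.heckeLatticeAlgebra p ∅) :=
    ⟨fun s t => Subtype.ext (LinearMap.ext fun f => Subsingleton.elim _ _)⟩
  have hn : ModularCurve.eisensteinNumerator p = 1 := by
    have h23 : p = 2 ∨ p = 3 := by
      interval_cases p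
      · exact absurd hpp (by decide)
      · exact absurd hpp (by decide)
      · exact Or.inl rfl
      · exact Or.inr rfl
      · exact absurd hpp (by decide)
    rcases h23 with h | h <;> rw [h] <;> decide
  rw [hn, Nat.card_eq_one_iff_unique]
  refine ⟨⟨fun x y => ?_⟩, ⟨0⟩⟩
  obtain ⟨s, rfl⟩ := Ideal.Quotient.mk_surjective x
  obtain ⟨t, rfl⟩ := Ideal.Quotient.mk_surjective y
  rw [Subsingleton.elim s t]

end Fermat.Agent.S16.H635
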